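import Fermat.Agent.CAR.DEG.Defs

/-!
# CAR / DEG-1 : monotonicity, uniqueness, comparison  ((D2) of the [P1] plan)
-/

set_option autoImplicit false

noncomputable section

namespace Fermat.Agent.CAR.DEG

open Fermat.Agent.CAR.RP

variable {k : Type*} [Field k]

theorem mem_Cut_iff_order {n : ℤ} {φ : LaurentSeries k} (hφ : φ ≠ 0) : φ ∈ Cut k n ↔ -n ≤ φ.order := by
  rw [mem_Cut]
  constructor
  · intro h
    by_contra hlt
    rw [not_le] at hlt
    exact hφ (HahnSeries.coeff_order_eq_zero.mp (h _ hlt))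
  · intro h m hm
    exact HahnSeries.coeff_eq_zero_of_lt_order (lt_of_lt_of_le hm h)

theorem Cut_mono : Monotone (Cut k) := by
  intro a b hab φ hφ m hm
  exact hφ m (by omega)

theorem Tr_mono_right (N : Submodule k (LaurentSeries k)) : Monotone (Tr N) := by
  intro a b hab
  exact inf_le_inf_left N (Cut_mono hab)

theorem Tr_mono_left {N N' : Submodule k (LaurentSeries k)} (h : N ≤ N') (n : ℤ) : Tr N n ≤ Tr N' n :=
  inf_le_inf_right _ h

/-- every element lies in some truncation (`n = max n₀ (-order x)`). -/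
theorem exists_mem_Tr {N : Submodule k (LaurentSeries k)} {x : LaurentSeries k} (hx : x ∈ N) (n₀ : ℤ) :
    ∃ n, n₀ ≤ n ∧ x ∈ Tr N n := by
  refine ⟨max n₀ (-x.order), le_max_left _ _, hx, ?_⟩
  by_cases h0 : x = 0
  · rw [h0]
    exact (Cut k _).zero_mem
  · refine (mem_Cut_iff_order h0).mpr ?_
    have := le_max_right n₀ (-x.order)
    omega

theorem HasChi.unique {N : Submodule k (LaurentSeries k)} {c c' : ℤ} (h : HasChi N c) (h' : HasChi N c') :
    c = c' := by
  obtain ⟨n₀, h⟩ := h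
  obtain ⟨n₁, h'⟩ := h'
  have h1 := (h (max n₀ n₁) (le_max_left _ _)).2
  have h2 := (h' (max n₀ n₁) (le_max_right _ _)).2
  omega

/-- (D2a) `Tr N n ≤ Tr N' n`, compare `finrank` for one large `n` (`Submodule.finrank_mono`). -/
theorem HasChi.le {N N' : Submodule k (LaurentSeries k)} {c c' : ℤ} (h : HasChi N c) (h' : HasChi N' c')
    (hle : N ≤ N') : c ≤ c' := by
  obtain ⟨n₀, h⟩ := h
  obtain ⟨n₁, h'⟩ := h'
  have h1 := (h (max n₀ n₁) (le_max_left _ _)).2
  obtain ⟨hf, h2⟩ := h' (max n₀ n₁) (le_max_right _ _)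
  have h3 := Submodule.finrank_mono (Tr_mono_left hle (max n₀ n₁))
  omega

/-- (D2b) equality of `χ` forces equality: `Tr N n = Tr N' n` for all large `n` (`Submodule.eq_of_le_of_finrank_le`),
and `N'` is the union of its truncations (`exists_mem_Tr`). -/
theorem HasChi.eq_of_le {N N' : Submodule k (LaurentSeries k)} {c c' : ℤ} (h : HasChi N c)
    (h' : HasChi N' c') (hle : N ≤ N') (hc : c' ≤ c) : N = N' := by
  obtain ⟨n₀, h⟩ := h
  obtain ⟨n₁, h'⟩ := h'
  refine le_antisymm hle fun x hx => ?_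
  obtain ⟨n, hn, hxn⟩ := exists_mem_Tr hx (max n₀ n₁)
  have h1 := (h n ((le_max_left _ _).trans hn)).2
  obtain ⟨hf, h2⟩ := h' n ((le_max_right _ _).trans hn)
  have h3 : Tr N n = Tr N' n :=
    Submodule.eq_of_le_of_finrank_le (Tr_mono_left hle n) (by omega)
  rw [← h3] at hxn
  exact hxn.1

end Fermat.Agent.CAR.DEG
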