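import Fermat.Agent.CAR.RP.Defs

/-!
# CAR / DEG : degree theory of fractional ideals of the chart ring `R'`.  Definitions (no sorry).

Shapes of helper18's plan for [P1]:  `Tr N n`, `HasChi N c`, `IsFrac R N`  for `k`-subspaces `N` of `k((Q))`.
-/

set_option autoImplicit false

noncomputable section

namespace Fermat.Agent.CAR.DEG

variable {k : Type*} [Field k]

/-- Laurent series with a pole of order `≤ n` at `Q = 0`  (`n : ℤ`). -/
def Cut (k : Type*) [Field k] (n : ℤ) : Submodule k (LaurentSeries k) where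
  carrier := {φ | ∀ m : ℤ, m < -n → φ.coeff m = 0}
  add_mem' := fun h h' m hm => by rw [HahnSeries.coeff_add, h m hm, h' m hm, add_zero]
  zero_mem' := fun _ _ => rfl
  smul_mem' := fun c φ h m hm => by rw [HahnSeries.coeff_smul, h m hm, smul_zero]

/-- the truncation `{x ∈ N | x = 0 ∨ -n ≤ order x}`. -/
def Tr (N : Submodule k (LaurentSeries k)) (n : ℤ) : Submodule k (LaurentSeries k) := N ⊓ Cut k n

theorem mem_Cut {n : ℤ} {φ : LaurentSeries k} : φ ∈ Cut k n ↔ ∀ m : ℤ, m < -n → φ.coeff m = 0 := Iff.rfl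

theorem mem_Tr {N : Submodule k (LaurentSeries k)} {n : ℤ} {φ : LaurentSeries k} :
    φ ∈ Tr N n ↔ φ ∈ N ∧ ∀ m : ℤ, m < -n → φ.coeff m = 0 := Iff.rfl

/-- `dim Tr N n = n + c` for `n ≫ 0`  ("`χ(N) = c`"). -/
def HasChi (N : Submodule k (LaurentSeries k)) (c : ℤ) : Prop :=
  ∃ n₀ : ℤ, ∀ n, n₀ ≤ n → Module.Finite k (Tr N n) ∧ (Module.finrank k (Tr N n) : ℤ) = n + c

/-- `N` is a fractional ideal of the subalgebra `R` of `k((Q))`. -/
def IsFrac (R : Subalgebra k (LaurentSeries k)) (N : Submodule k (LaurentSeries k)) : Prop :=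
  N ≠ ⊥ ∧ (∀ r ∈ R, ∀ x ∈ N, r * x ∈ N) ∧ ∃ ξ : LaurentSeries k, ξ ≠ 0 ∧ ∀ x ∈ N, ξ * x ∈ R

/-- `ξ N`. -/
def sc (ξ : LaurentSeries k) (N : Submodule k (LaurentSeries k)) : Submodule k (LaurentSeries k) where
  carrier := {φ | ∃ x ∈ N, ξ * x = φ}
  add_mem' := by
    rintro _ _ ⟨x, hx, rfl⟩ ⟨y, hy, rfl⟩
    exact ⟨x + y, N.add_mem hx hy, mul_add _ _ _⟩
  zero_mem' := ⟨0, N.zero_mem, mul_zero _⟩
  smul_mem' := by
    rintro c _ ⟨x, hx, rfl⟩
    exact ⟨c • x, N.smul_mem c hx, by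
      rw [RP.smul_eq_algebraMap_mul, RP.smul_eq_algebraMap_mul, mul_left_comm]⟩

theorem mem_sc {ξ φ : LaurentSeries k} {N : Submodule k (LaurentSeries k)} :
    φ ∈ sc ξ N ↔ ∃ x ∈ N, ξ * x = φ := Iff.rfl

/-- a subalgebra of `k((Q))` as a `k`-subspace (for the `HahnSeries` module structure). -/
def ofAlg (R : Subalgebra k (LaurentSeries k)) : Submodule k (LaurentSeries k) where
  carrier := {φ | φ ∈ R}
  add_mem' := fun h h' => R.add_mem h h'
  zero_mem' := R.zero_mem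
  smul_mem' := fun c φ h => by
    show c • φ ∈ R
    rw [RP.smul_eq_algebraMap_mul]
    exact R.mul_mem (R.algebraMap_mem c) h

theorem mem_ofAlg {R : Subalgebra k (LaurentSeries k)} {φ : LaurentSeries k} : φ ∈ ofAlg R ↔ φ ∈ R := Iff.rfl

/-- an ideal of a subalgebra, as a `k`-subspace of `k((Q))`. -/
def ofIdeal {R : Subalgebra k (LaurentSeries k)} (I : Ideal R) : Submodule k (LaurentSeries k) where
  carrier := {φ | ∃ h : φ ∈ R, (⟨φ, h⟩ : R) ∈ I}
  add_mem' := by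
    rintro φ ψ ⟨h, hI⟩ ⟨h', hI'⟩
    exact ⟨R.add_mem h h', I.add_mem hI hI'⟩
  zero_mem' := ⟨R.zero_mem, I.zero_mem⟩
  smul_mem' := by
    rintro c φ ⟨h, hI⟩
    have hm : c • φ = algebraMap k (LaurentSeries k) c * φ := RP.smul_eq_algebraMap_mul c φ
    refine ⟨by rw [hm]; exact R.mul_mem (R.algebraMap_mem c) h, ?_⟩
    have : (⟨c • φ, by rw [hm]; exact R.mul_mem (R.algebraMap_mem c) h⟩ : R) = algebraMap k R c * ⟨φ, h⟩ :=
      Subtype.ext hm
    rw [this]
    exact I.mul_mem_left _ hI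

theorem mem_ofIdeal {R : Subalgebra k (LaurentSeries k)} {I : Ideal R} {φ : LaurentSeries k} :
    φ ∈ ofIdeal I ↔ ∃ h : φ ∈ R, (⟨φ, h⟩ : R) ∈ I := Iff.rfl

/-- the product `N N'` (`k`-span of the products).  NB `Submodule.mul` is not available: the `Algebra k k((Q))` instance
in scope does not induce the `HahnSeries` module structure definitionally. -/
def mulS (N N' : Submodule k (LaurentSeries k)) : Submodule k (LaurentSeries k) :=
  Submodule.span k {φ | ∃ x ∈ N, ∃ y ∈ N', x * y = φ}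

theorem mul_mem_mulS {N N' : Submodule k (LaurentSeries k)} {x y : LaurentSeries k} (hx : x ∈ N) (hy : y ∈ N') :
    x * y ∈ mulS N N' := Submodule.subset_span ⟨x, hx, y, hy, rfl⟩

end Fermat.Agent.CAR.DEG
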