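import Fermat.Agent.CAR.DEG.Scale
import Fermat.Agent.CAR.RP.QuotB2

/-!
# CAR / DEG-3 : `χ` of the chart ring, of its ideals and of its fractional ideals  ((D0), (D1))
-/

set_option autoImplicit false

noncomputable section

namespace Fermat.Agent.CAR.DEG

open Fermat.Agent.CAR.RP

variable {k : Type*} [Field k]

variable {Fb : IntermediateField k (LaurentSeries k)} {ξ : LaurentSeries k} {g : ℕ}

theorem Tr_ofAlg_RR (N : ℕ) : Tr (ofAlg (RR Fb ξ)) (N : ℤ) = RN Fb ξ N := by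
  ext φ
  exact Iff.rfl

theorem Tr_ofIdeal (I : Ideal (RR Fb ξ)) (N : ℕ) : Tr (ofIdeal I) (N : ℤ) = IN I N := by
  ext φ
  exact Iff.rfl

/-- (D0) restatement of `IsCurve` (an integer `n ≥ N₀ ≥ 0` is a natural number: `Int.toNat`). -/
theorem hasChi_RR (hC : IsCurve Fb ξ g) : HasChi (ofAlg (RR Fb ξ)) (1 - g) := by
  obtain ⟨N₀, h⟩ := hC
  refine ⟨(N₀ : ℤ), fun n hn => ?_⟩
  obtain ⟨m, rfl⟩ := Int.eq_ofNat_of_zero_le (le_trans (Int.natCast_nonneg N₀) hn)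
  obtain ⟨h1, h2⟩ := h m (by exact_mod_cast hn)
  rw [Tr_ofAlg_RR]
  refine ⟨h1, ?_⟩
  have h3 : ((Module.finrank k (RN Fb ξ m) : ℕ) : ℤ) + g = m + 1 := by exact_mod_cast h2
  linarith

/-- restatement of `RP.finrank_IN`. -/
theorem hasChi_ofIdeal (hC : IsCurve Fb ξ g) (I : Ideal (RR Fb ξ)) (hI : I ≠ ⊥) :
    HasChi (ofIdeal I) (1 - g - colen k I) := by
  obtain ⟨N₀, h⟩ := finrank_IN hC I hI
  refine ⟨(N₀ : ℤ), fun n hn => ?_⟩
  obtain ⟨m, rfl⟩ := Int.eq_ofNat_of_zero_le (le_trans (Int.natCast_nonneg N₀) hn)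
  obtain ⟨h1, h2⟩ := h m (by exact_mod_cast hn)
  rw [Tr_ofIdeal]
  refine ⟨h1, ?_⟩
  have h3 : ((Module.finrank k (IN I m) : ℕ) : ℤ) + g + colen k I = m + 1 := by exact_mod_cast h2
  linarith

/-- a fractional ideal is `η⁻¹ I`.  (`I := {r : R | (r : k((Q))) ∈ sc η N}`.) -/
theorem exists_ideal_of_isFrac {R : Subalgebra k (LaurentSeries k)} {N : Submodule k (LaurentSeries k)}
    (h : IsFrac R N) : ∃ η : LaurentSeries k, η ≠ 0 ∧ ∃ I : Ideal R, I ≠ ⊥ ∧ sc η N = ofIdeal I := by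
  obtain ⟨hN, hmul, η, hη, hR⟩ := h
  let I : Ideal R :=
    { carrier := {r | (r : LaurentSeries k) ∈ sc η N}
      add_mem' := fun {a b} ha hb => (sc η N).add_mem ha hb
      zero_mem' := (sc η N).zero_mem
      smul_mem' := by
        rintro c r ⟨x, hx, hxr⟩
        refine ⟨(c : LaurentSeries k) * x, hmul _ c.2 x hx, ?_⟩
        show η * ((c : LaurentSeries k) * x) = (c : LaurentSeries k) * (r : LaurentSeries k)
        rw [← hxr, mul_left_comm] }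
  refine ⟨η, hη, I, ?_, ?_⟩
  · obtain ⟨x, hx, hx0⟩ := Submodule.exists_mem_ne_zero_of_ne_bot hN
    intro hbot
    have h1 : (⟨η * x, hR x hx⟩ : R) ∈ I := ⟨x, hx, rfl⟩
    rw [hbot, Submodule.mem_bot] at h1
    exact mul_ne_zero hη hx0 (congrArg Subtype.val h1)
  · ext φ
    rw [mem_ofIdeal]
    constructor
    · rintro ⟨x, hx, rfl⟩
      exact ⟨hR x hx, ⟨x, hx, rfl⟩⟩
    · rintro ⟨_, h2⟩
      exact h2

theorem isFrac_ofIdeal {R : Subalgebra k (LaurentSeries k)} {I : Ideal R} (hI : I ≠ ⊥) : IsFrac R (ofIdeal I) := by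
  refine ⟨?_, ?_, 1, one_ne_zero, ?_⟩
  · obtain ⟨r, hr, hr0⟩ := Submodule.exists_mem_ne_zero_of_ne_bot hI
    intro hbot
    have h1 : (r : LaurentSeries k) ∈ ofIdeal I := ⟨r.2, hr⟩
    rw [hbot, Submodule.mem_bot] at h1
    exact hr0 (Subtype.ext h1)
  · rintro r hr x ⟨hx, hxI⟩
    refine ⟨R.mul_mem hr hx, ?_⟩
    have h1 : (⟨r * x, R.mul_mem hr hx⟩ : R) = (⟨r, hr⟩ : R) * (⟨x, hx⟩ : R) := Subtype.ext rfl
    rw [h1]
    exact I.mul_mem_left _ hxI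
  · rintro x ⟨hx, -⟩
    rw [one_mul]
    exact hx

theorem isFrac_ofAlg (R : Subalgebra k (LaurentSeries k)) : IsFrac R (ofAlg R) := by
  refine ⟨?_, ?_, 1, one_ne_zero, ?_⟩
  · intro hbot
    have h1 : (1 : LaurentSeries k) ∈ ofAlg R := R.one_mem
    rw [hbot, Submodule.mem_bot] at h1
    exact one_ne_zero h1
  · intro r hr x hx
    exact R.mul_mem hr hx
  · intro x hx
    rw [one_mul]
    exact hx

/-- (D1) `N = sc η⁻¹ (ofIdeal I)`, `hasChi_ofIdeal`, `hasChi_sc`. -/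
theorem exists_hasChi (hC : IsCurve Fb ξ g) {N : Submodule k (LaurentSeries k)} (h : IsFrac (RR Fb ξ) N) :
    ∃ c, HasChi N c := by
  obtain ⟨η, hη, I, hI, hsc⟩ := exists_ideal_of_isFrac h
  have h1 : N = sc η⁻¹ (ofIdeal I) := by
    rw [← hsc, sc_sc, inv_mul_cancel₀ hη, sc_one]
  rw [h1]
  exact ⟨_, hasChi_sc (inv_ne_zero hη) (hasChi_ofIdeal hC I hI)⟩

end Fermat.Agent.CAR.DEG
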