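import Fermat.Agent.CAR.DEG.Ideal
import Fermat.Agent.CAR.RP.ColenA2
import Fermat.Agent.CAR.RP.Closed

/-!
# CAR / DEG-4 : additivity of `χ`  ((D4) of the [P1] plan)
-/

set_option autoImplicit false

noncomputable section

namespace Fermat.Agent.CAR.DEG

open Fermat.Agent.CAR.RP

variable {k : Type*} [Field k]

variable {Fb : IntermediateField k (LaurentSeries k)} {ξ : LaurentSeries k} {g : ℕ}

/-- `I * J` is the additive span of the products (`Submodule.mul_induction_on`). -/
theorem ofIdeal_mul {R : Subalgebra k (LaurentSeries k)} (I J : Ideal R) :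
    ofIdeal (I * J) = mulS (ofIdeal I) (ofIdeal J) := by
  apply le_antisymm
  · rintro φ ⟨h, hIJ⟩
    have key : ∀ r : R, r ∈ I * J → (r : LaurentSeries k) ∈ mulS (ofIdeal I) (ofIdeal J) := by
      intro r hr
      induction hr using Submodule.mul_induction_on' with
      | mem_mul_mem a ha b hb =>
        exact mul_mem_mulS (N := ofIdeal I) (N' := ofIdeal J) ⟨a.2, ha⟩ ⟨b.2, hb⟩
      | add x _ y _ hx hy => exact Submodule.add_mem _ hx hy
    exact key ⟨φ, h⟩ hIJ
  · rw [mulS_le]
    rintro x ⟨hx, hxI⟩ y ⟨hy, hyJ⟩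
    refine ⟨R.mul_mem hx hy, ?_⟩
    have e : (⟨x * y, R.mul_mem hx hy⟩ : R) = (⟨x, hx⟩ : R) * (⟨y, hy⟩ : R) := rfl
    rw [e]
    exact Ideal.mul_mem_mul hxI hyJ

theorem isFrac_mulS {R : Subalgebra k (LaurentSeries k)} {N N' : Submodule k (LaurentSeries k)}
    (h : IsFrac R N) (h' : IsFrac R N') : IsFrac R (mulS N N') := by
  obtain ⟨h0, hR, ξ, hξ, hξN⟩ := h
  obtain ⟨h0', hR', ξ', hξ', hξN'⟩ := h'
  refine ⟨?_, ?_, ξ * ξ', mul_ne_zero hξ hξ', ?_⟩
  · obtain ⟨x, hx, hx0⟩ := (Submodule.ne_bot_iff _).1 h0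
    obtain ⟨y, hy, hy0⟩ := (Submodule.ne_bot_iff _).1 h0'
    exact (Submodule.ne_bot_iff _).2 ⟨x * y, mul_mem_mulS hx hy, mul_ne_zero hx0 hy0⟩
  · intro r hr x hx
    have h1 : sc r (mulS N N') ≤ mulS N N' := by
      rw [← mulS_sc_left]
      refine mulS_mono ?_ le_rfl
      rintro _ ⟨a, ha, rfl⟩
      exact hR r hr a ha
    exact h1 ⟨x, hx, rfl⟩
  · intro x hx
    have h1 : sc (ξ * ξ') (mulS N N') ≤ ofAlg R := by
      rw [← sc_sc, ← mulS_sc_right, ← mulS_sc_left, mulS_le]
      rintro _ ⟨a, ha, rfl⟩ _ ⟨b, hb, rfl⟩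
      exact R.mul_mem (hξN a ha) (hξN' b hb)
    exact h1 ⟨x, hx, rfl⟩

theorem mulS_ofAlg {R : Subalgebra k (LaurentSeries k)} {N : Submodule k (LaurentSeries k)} (h : IsFrac R N) :
    mulS (ofAlg R) N = N := by
  apply le_antisymm
  · rw [mulS_le]
    intro r hr x hx
    exact h.2.1 r hr x hx
  · intro x hx
    have := mul_mem_mulS (N := ofAlg R) (N' := N) (x := 1) (y := x) R.one_mem hx
    rwa [one_mul] at this

/-- (D4) PROOF. `sc η N = ofIdeal I`, `sc η' N' = ofIdeal J` (`exists_ideal_of_isFrac`).  By `hasChi_ofIdeal`, `hasChi_sc`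
and `HasChi.unique`: `c + order η = 1 - g - colen I`, `c' + order η' = 1 - g - colen J`.
`sc (η η') (mulS N N') = mulS (ofIdeal I) (ofIdeal J) = ofIdeal (I J)` has `χ = 1 - g - colen I - colen J`
(`RP.colen_mul` with `RP.isDedekindDomain_RR hC`, `RP.finColen_RR hC`); scale back by `(η η')⁻¹`
(`order_mul`, `HahnSeries.order_inv`-type lemma or `order (η η') + order (η η')⁻¹ = order 1 = 0`). -/
theorem hasChi_mulS (hC : IsCurve Fb ξ g) {N N' : Submodule k (LaurentSeries k)} (hN : IsFrac (RR Fb ξ) N)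
    (hN' : IsFrac (RR Fb ξ) N') {c c' : ℤ} (h : HasChi N c) (h' : HasChi N' c') :
    HasChi (mulS N N') (c + c' - (1 - g)) := by
  obtain ⟨η, hη, I, hI, hscI⟩ := exists_ideal_of_isFrac hN
  obtain ⟨η', hη', J, hJ, hscJ⟩ := exists_ideal_of_isFrac hN'
  have := isDedekindDomain_RR hC
  have e1 : c + η.order = 1 - g - colen k I := by
    have h1 := hasChi_sc hη h
    rw [hscI] at h1
    exact h1.unique (hasChi_ofIdeal hC I hI)
  have e2 : c' + η'.order = 1 - g - colen k J := by
    have h1 := hasChi_sc hη' h'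
    rw [hscJ] at h1
    exact h1.unique (hasChi_ofIdeal hC J hJ)
  have hIJ : I * J ≠ ⊥ := by
    have := mul_ne_zero (a := I) (b := J) (by simpa using hI) (by simpa using hJ)
    simpa using this
  have e3 : sc (η * η') (mulS N N') = ofIdeal (I * J) := by
    rw [← sc_sc, ← mulS_sc_right, ← mulS_sc_left, hscI, hscJ, ofIdeal_mul]
  have hηη : η * η' ≠ 0 := mul_ne_zero hη hη'
  have e4 : mulS N N' = sc (η * η')⁻¹ (ofIdeal (I * J)) := by
    rw [← e3, sc_sc, inv_mul_cancel₀ hηη, sc_one]
  have e5 : (η * η')⁻¹.order = - (η.order + η'.order) := by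
    have h1 : ((η * η') * (η * η')⁻¹).order = 0 := by
      rw [mul_inv_cancel₀ hηη, HahnSeries.order_one]
    rw [HahnSeries.order_mul hηη (inv_ne_zero hηη), HahnSeries.order_mul hη hη'] at h1
    linarith
  have h2 := hasChi_sc (inv_ne_zero hηη) (hasChi_ofIdeal hC (I * J) hIJ)
  rw [← e4, colen_mul k (finColen_RR hC) hI hJ, e5] at h2
  have e6 : (1 : ℤ) - g - ((colen k I + colen k J : ℕ) : ℤ) + -(η.order + η'.order) = c + c' - (1 - g) := by
    push_cast
    linarith
  rwa [e6] at h2

/-- powers: `powS R N 0 = R`, `powS R N (n+1) = (powS R N n) N`. -/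
def powS (R : Subalgebra k (LaurentSeries k)) (N : Submodule k (LaurentSeries k)) :
    ℕ → Submodule k (LaurentSeries k)
  | 0 => ofAlg R
  | n + 1 => mulS (powS R N n) N

theorem isFrac_powS {R : Subalgebra k (LaurentSeries k)} {N : Submodule k (LaurentSeries k)} (h : IsFrac R N)
    (n : ℕ) : IsFrac R (powS R N n) := by
  induction n with
  | zero => exact isFrac_ofAlg R
  | succ n ih => exact isFrac_mulS ih h

theorem hasChi_powS (hC : IsCurve Fb ξ g) {N : Submodule k (LaurentSeries k)} (hN : IsFrac (RR Fb ξ) N) {c : ℤ}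
    (h : HasChi N c) (n : ℕ) : HasChi (powS (RR Fb ξ) N n) (n * (c - (1 - g)) + (1 - g)) := by
  induction n with
  | zero =>
    have := hasChi_RR hC
    simpa [powS] using this
  | succ n ih =>
    have h1 := hasChi_mulS hC (isFrac_powS hN n) hN ih h
    have e : (n : ℤ) * (c - (1 - g)) + (1 - g) + c - (1 - g) = ((n + 1 : ℕ) : ℤ) * (c - (1 - g)) + (1 - g) := by
      push_cast
      ring
    rw [e] at h1
    exact h1

/-- `{x | x * y ∈ M}`. -/
def Mul_colon (M : Submodule k (LaurentSeries k)) (y : LaurentSeries k) : Submodule k (LaurentSeries k) where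
  carrier := {x | x * y ∈ M}
  add_mem' := fun {a b} ha hb => by
    show (a + b) * y ∈ M
    rw [add_mul]
    exact M.add_mem ha hb
  zero_mem' := by
    show (0 : LaurentSeries k) * y ∈ M
    rw [zero_mul]
    exact M.zero_mem
  smul_mem' := fun c x hx => by
    show (c • x) * y ∈ M
    have : (c • x) * y = c • (x * y) := by
      rw [RP.smul_eq_algebraMap_mul, RP.smul_eq_algebraMap_mul, mul_assoc]
    rw [this]
    exact M.smul_mem c hx

/-- to bound `powS` it suffices to bound the products of `n` elements. -/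
theorem powS_le {R : Subalgebra k (LaurentSeries k)} {N M : Submodule k (LaurentSeries k)} (n : ℕ)
    (hM : ∀ r ∈ R, ∀ x ∈ M, r * x ∈ M) (h : ∀ z : Fin n → LaurentSeries k, (∀ i, z i ∈ N) → ∏ i, z i ∈ M) :
    powS R N n ≤ M := by
  induction n generalizing M with
  | zero =>
    intro r hr
    have h1 : (1 : LaurentSeries k) ∈ M := by
      have := h (fun _ => 0) (fun i => i.elim0)
      simpa using this
    have := hM r hr 1 h1
    rwa [mul_one] at this
  | succ n ih =>
    show mulS (powS R N n) N ≤ M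
    rw [mulS_le]
    intro x hx y hy
    have h1 : powS R N n ≤ Mul_colon M y := by
      apply ih
      · intro r hr a ha
        show r * a * y ∈ M
        rw [mul_assoc]
        exact hM r hr _ ha
      · intro z hz
        show (∏ i, z i) * y ∈ M
        have := h (Fin.cons y z) (fun i => by
          refine Fin.cases ?_ (fun j => ?_) i
          · simpa using hy
          · simpa using hz j)
        rw [Fin.prod_cons] at this
        rwa [mul_comm]
    exact h1 hx

end Fermat.Agent.CAR.DEG
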