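import Fermat.Agent.CAR.DEG.Basic

/-!
# CAR / DEG-2 : scaling by a nonzero series  ((D3) of the [P1] plan)
-/

set_option autoImplicit false

noncomputable section

namespace Fermat.Agent.CAR.DEG

open Fermat.Agent.CAR.RP

variable {k : Type*} [Field k]

theorem mul_smul_comm' (ξ : LaurentSeries k) (c : k) (x : LaurentSeries k) :
    ξ * (c • x) = c • (ξ * x) := by
  rw [RP.smul_eq_algebraMap_mul, RP.smul_eq_algebraMap_mul, mul_left_comm]

/-- multiplication by `ξ` as a `k`-linear map (for the `HahnSeries` module structure). -/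
def mulL (ξ : LaurentSeries k) : LaurentSeries k →ₗ[k] LaurentSeries k where
  toFun := fun x => ξ * x
  map_add' := mul_add ξ
  map_smul' := fun c x => mul_smul_comm' ξ c x

@[simp] theorem mulL_apply (ξ x : LaurentSeries k) : mulL ξ x = ξ * x := rfl

theorem mulL_injective {ξ : LaurentSeries k} (hξ : ξ ≠ 0) : Function.Injective (mulL ξ) :=
  fun _ _ h => mul_left_cancel₀ hξ h

theorem sc_eq_map (ξ : LaurentSeries k) (N : Submodule k (LaurentSeries k)) :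
    sc ξ N = N.map (mulL ξ) := by
  ext φ
  rw [mem_sc, Submodule.mem_map]
  rfl

/-- `order (ξ x) = order ξ + order x` (`HahnSeries.order_mul`). -/
theorem mul_mem_Cut_iff {ξ x : LaurentSeries k} (hξ : ξ ≠ 0) (n : ℤ) :
    ξ * x ∈ Cut k n ↔ x ∈ Cut k (n + ξ.order) := by
  by_cases hx : x = 0
  · rw [hx, mul_zero]
    exact ⟨fun _ => (Cut k _).zero_mem, fun _ => (Cut k _).zero_mem⟩
  · rw [mem_Cut_iff_order (mul_ne_zero hξ hx), mem_Cut_iff_order hx, HahnSeries.order_mul hξ hx]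
    constructor <;> intro h <;> omega

theorem sc_one (N : Submodule k (LaurentSeries k)) : sc 1 N = N := by
  ext φ
  rw [mem_sc]
  constructor
  · rintro ⟨x, hx, rfl⟩
    rwa [one_mul]
  · intro h
    exact ⟨φ, h, one_mul φ⟩

theorem sc_sc (ξ η : LaurentSeries k) (N : Submodule k (LaurentSeries k)) : sc ξ (sc η N) = sc (ξ * η) N := by
  ext φ
  simp only [mem_sc]
  constructor
  · rintro ⟨_, ⟨x, hx, rfl⟩, rfl⟩
    exact ⟨x, hx, mul_assoc _ _ _⟩
  · rintro ⟨x, hx, rfl⟩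
    exact ⟨η * x, ⟨x, hx, rfl⟩, (mul_assoc _ _ _).symm⟩

theorem sc_mono (ξ : LaurentSeries k) {N N' : Submodule k (LaurentSeries k)} (h : N ≤ N') : sc ξ N ≤ sc ξ N' := by
  rintro _ ⟨x, hx, rfl⟩
  exact ⟨x, h hx, rfl⟩

theorem Tr_sc {ξ : LaurentSeries k} (hξ : ξ ≠ 0) (N : Submodule k (LaurentSeries k)) (n : ℤ) :
    Tr (sc ξ N) n = (Tr N (n + ξ.order)).map (mulL ξ) := by
  ext φ
  rw [Submodule.mem_map]
  constructor
  · rintro ⟨⟨x, hx, rfl⟩, h2⟩
    exact ⟨x, ⟨hx, (mul_mem_Cut_iff hξ n).mp h2⟩, rfl⟩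
  · rintro ⟨x, ⟨hx, h2⟩, rfl⟩
    exact ⟨⟨x, hx, rfl⟩, (mul_mem_Cut_iff hξ n).mpr h2⟩

/-- (D3) multiplication by `ξ` is a `k`-linear isomorphism `Tr N (n + order ξ) ≃ Tr (sc ξ N) n`
(build a `LinearEquiv`, or two injective linear maps; NB use `RP.smul_eq_algebraMap_mul` for `ξ * (c • x) = c • (ξ * x)`:
there is no `SMulCommClass` instance for the `HahnSeries` module structure). -/
theorem hasChi_sc {ξ : LaurentSeries k} (hξ : ξ ≠ 0) {N : Submodule k (LaurentSeries k)} {c : ℤ}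
    (h : HasChi N c) : HasChi (sc ξ N) (c + ξ.order) := by
  obtain ⟨n₀, h⟩ := h
  refine ⟨n₀ - ξ.order, fun n hn => ?_⟩
  obtain ⟨hf, hr⟩ := h (n + ξ.order) (by omega)
  rw [Tr_sc hξ]
  refine ⟨inferInstance, ?_⟩
  rw [← LinearEquiv.finrank_eq
    (Submodule.equivMapOfInjective (mulL ξ) (mulL_injective hξ) (Tr N (n + ξ.order))), hr]
  ring

theorem isFrac_sc {R : Subalgebra k (LaurentSeries k)} {ξ : LaurentSeries k} (hξ : ξ ≠ 0)
    {N : Submodule k (LaurentSeries k)} (h : IsFrac R N) : IsFrac R (sc ξ N) := by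
  obtain ⟨h1, h2, η, hη, h3⟩ := h
  refine ⟨?_, ?_, η * ξ⁻¹, mul_ne_zero hη (inv_ne_zero hξ), ?_⟩
  · obtain ⟨x, hx, hx0⟩ := Submodule.exists_mem_ne_zero_of_ne_bot h1
    intro hbot
    have : ξ * x ∈ sc ξ N := ⟨x, hx, rfl⟩
    rw [hbot, Submodule.mem_bot] at this
    exact mul_ne_zero hξ hx0 this
  · rintro r hr _ ⟨x, hx, rfl⟩
    exact ⟨r * x, h2 r hr x hx, mul_left_comm _ _ _⟩
  · rintro _ ⟨x, hx, rfl⟩
    have : η * ξ⁻¹ * (ξ * x) = η * x := by
      rw [mul_assoc, inv_mul_cancel_left₀ hξ]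
    rw [this]
    exact h3 x hx

theorem mulS_comm (N N' : Submodule k (LaurentSeries k)) : mulS N N' = mulS N' N := by
  unfold mulS
  congr 1
  ext φ
  constructor
  · rintro ⟨x, hx, y, hy, rfl⟩
    exact ⟨y, hy, x, hx, mul_comm _ _⟩
  · rintro ⟨x, hx, y, hy, rfl⟩
    exact ⟨y, hy, x, hx, mul_comm _ _⟩

theorem mulS_mono {N₁ N₂ N₁' N₂' : Submodule k (LaurentSeries k)} (h : N₁ ≤ N₂) (h' : N₁' ≤ N₂') :
    mulS N₁ N₁' ≤ mulS N₂ N₂' := by
  refine Submodule.span_mono ?_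
  rintro _ ⟨x, hx, y, hy, rfl⟩
  exact ⟨x, h hx, y, h' hy, rfl⟩

theorem mulS_le {N N' M : Submodule k (LaurentSeries k)} : mulS N N' ≤ M ↔ ∀ x ∈ N, ∀ y ∈ N', x * y ∈ M := by
  unfold mulS
  rw [Submodule.span_le]
  constructor
  · intro h x hx y hy
    exact h ⟨x, hx, y, hy, rfl⟩
  · rintro h _ ⟨x, hx, y, hy, rfl⟩
    exact h x hx y hy

theorem mulS_sc_left (ξ : LaurentSeries k) (N N' : Submodule k (LaurentSeries k)) :
    mulS (sc ξ N) N' = sc ξ (mulS N N') := by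
  apply le_antisymm
  · rw [mulS_le]
    rintro _ ⟨x, hx, rfl⟩ y hy
    exact ⟨x * y, mul_mem_mulS hx hy, (mul_assoc _ _ _).symm⟩
  · rw [sc_eq_map, mulS, Submodule.map_span_le]
    rintro _ ⟨x, hx, y, hy, rfl⟩
    rw [mulL_apply, ← mul_assoc]
    exact mul_mem_mulS ⟨x, hx, rfl⟩ hy

theorem mulS_sc_right (ξ : LaurentSeries k) (N N' : Submodule k (LaurentSeries k)) :
    mulS N (sc ξ N') = sc ξ (mulS N N') := by
  rw [mulS_comm, mulS_sc_left, mulS_comm]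

end Fermat.Agent.CAR.DEG
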